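/-
Programme T1B, NODE PLACES over `κ̄` (helper77): the generation hypothesis `htop` of
`Unif77/ConstExt`, reduced to the residue map of the branch.

`A` the local ring of the model at a node (`D : NodeData A v₁ v₂ P₁ P₂ π x y K`), `ιA : A →+* F` its
embedding in the function field `F = Frac A`, `O₁ ⊇ ιA(A)` the valuation ring of the branch `X₁`,
`res₁ : O₁ →+* k` its residue map (`hres`: nonunits go to `0`), `ρA = res₁ ∘ ιA` with kernel `P₁`.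

* `exists_cross` : in `A`, `v₁ a₂ ≤ v₁ a₁ ⇒ a₁ b = a₂ a` with `b ∉ P₁` (vertical twist by `x`, `y`);
* `exists_frac_of_mem` : every `z ∈ O₁` is `ιA a / ιA b` with `b ∉ P₁`;
* `adjoin_range_eq_top` : `κ(res₁ O₁) = k ⇒ κ(ρA A) = k`  (`= htop`);
* `nodePlaceW_of_res` : `Hol80.NodePlaceW P₁ ρA v` from `(ker, mem, pos)`, `Frac A = F`,
  `κ(res₁ O₁) = k`, `κ` algebraic over `𝔽_p`.
-/
import Mathlib
import Fermat.Agent.T1B.Unif77.Node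

set_option autoImplicit false
set_option linter.unusedSectionVars false
set_option linter.unusedVariables false

namespace Fermat.Agent.T1B.Unif77

open AlgebraicCurve IsLocalRing Fermat.Agent.T1.Peu37.NodeClassGroup Fermat.Agent.T1B.Node45.Orbit
  Fermat.Agent.T1B.Hol80

variable {A : Type*} [CommRing A] [IsDomain A] [IsLocalRing A]
variable {v₁ v₂ : A → ℕ} {P₁ P₂ : Ideal A} {π x y : A} {K : ℕ}

/-- **The vertical twist.**  For `a ≠ 0` with `v₁ a = m`: `a ^ K * x ^ m * ε' ^ m = π ^ (K m) * b`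
with `b ∉ P₁`; more generally, for `v₁ a₂ ≤ v₁ a₁`: `a₁ b = a₂ a` with `b ∉ P₁`. -/
theorem exists_cross (D : NodeData A v₁ v₂ P₁ P₂ π x y K) {a₁ a₂ : A} (h1 : a₁ ≠ 0) (h2 : a₂ ≠ 0)
    (hle : v₁ a₂ ≤ v₁ a₁) : ∃ a b : A, b ∉ P₁ ∧ a₁ * b = a₂ * a := by
  obtain ⟨ε, hε, hrel⟩ := D.rel
  obtain ⟨ε', hε'⟩ := hε.exists_right_inv
  have hε'u : IsUnit ε' := IsUnit.of_mul_eq_one_right ε hε'
  have hε'0 : ε' ≠ 0 := hε'u.ne_zero
  have hx0 : x ≠ 0 := D.x_ne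
  obtain ⟨K', rfl⟩ : ∃ K', K = K' + 1 := ⟨K - 1, by have := D.K_pos; omega⟩
  set m := v₁ a₂ with hm
  -- the two numerators
  set fb := a₂ ^ (K' + 1) * (x ^ m * ε' ^ m) with hfb
  set fa := a₁ * a₂ ^ K' * (x ^ m * ε' ^ m) with hfa
  have hxe0 : x ^ m * ε' ^ m ≠ 0 := mul_ne_zero (pow_ne_zero _ hx0) (pow_ne_zero _ hε'0)
  have hv1xe : v₁ (x ^ m * ε' ^ m) = 0 := by
    rw [D.v₁_mul _ _ (pow_ne_zero _ hx0) (pow_ne_zero _ hε'0), D.v₁_pow hx0, D.v₁_pow hε'0,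
      D.v₁_x, D.v₁_unit hε'u, mul_zero, add_zero]
  have hv2xe : v₂ (x ^ m * ε' ^ m) = m * (K' + 1) := by
    rw [D.v₂_mul _ _ (pow_ne_zero _ hx0) (pow_ne_zero _ hε'0), D.symm.v₁_pow hx0,
      D.symm.v₁_pow hε'0, v₂_x D, D.symm.v₁_unit hε'u]
    ring
  have hfb0 : fb ≠ 0 := mul_ne_zero (pow_ne_zero _ h2) hxe0
  have hfa0 : fa ≠ 0 := mul_ne_zero (mul_ne_zero h1 (pow_ne_zero _ h2)) hxe0
  have hv1fb : v₁ fb = (K' + 1) * m := by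
    rw [hfb, D.v₁_mul _ _ (pow_ne_zero _ h2) hxe0, D.v₁_pow h2, hv1xe, add_zero]
  have hv2fb : (K' + 1) * m ≤ v₂ fb := by
    rw [hfb, D.v₂_mul _ _ (pow_ne_zero _ h2) hxe0, hv2xe]
    nlinarith [Nat.zero_le (v₂ (a₂ ^ (K' + 1)))]
  have hv1fa : (K' + 1) * m ≤ v₁ fa := by
    rw [hfa, D.v₁_mul _ _ (mul_ne_zero h1 (pow_ne_zero _ h2)) hxe0, hv1xe, add_zero,
      D.v₁_mul _ _ h1 (pow_ne_zero _ h2), D.v₁_pow h2]
    nlinarith
  have hv2fa : (K' + 1) * m ≤ v₂ fa := by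
    rw [hfa, D.v₂_mul _ _ (mul_ne_zero h1 (pow_ne_zero _ h2)) hxe0, hv2xe]
    nlinarith [Nat.zero_le (v₂ (a₁ * a₂ ^ K'))]
  obtain ⟨b, hb⟩ := D.pow_dvd_of_le ((K' + 1) * m) fb hfb0 (le_of_eq hv1fb.symm) hv2fb
  obtain ⟨a, ha⟩ := D.pow_dvd_of_le ((K' + 1) * m) fa hfa0 hv1fa hv2fa
  have hπpow0 : π ^ ((K' + 1) * m) ≠ 0 := pow_ne_zero _ D.pi_ne
  have hb0 : b ≠ 0 := by
    rintro rfl
    rw [mul_zero] at hb
    exact hfb0 hb
  refine ⟨a, b, ?_, ?_⟩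
  · apply not_mem_P₁_of_v₁ D hb0
    have := hv1fb
    rw [hb, D.v₁_mul _ _ hπpow0 hb0, D.v₁_pow D.pi_ne, D.v₁_pi, mul_one] at this
    omega
  · apply mul_left_cancel₀ hπpow0
    calc π ^ ((K' + 1) * m) * (a₁ * b) = a₁ * fb := by rw [hb]; ring
      _ = a₂ * fa := by rw [hfb, hfa]; ring
      _ = π ^ ((K' + 1) * m) * (a₂ * a) := by rw [ha]; ring

variable {F : Type*} [Field F]

/-- The orders `v₁` are compatible with `O₁` as soon as elements outside `P₁` are units of `O₁` and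
`π` is not. -/
theorem v₁_le_of_div_mem (D : NodeData A v₁ v₂ P₁ P₂ π x y K) (ιA : A →+* F)
    (hinj : Function.Injective ιA) (O₁ : ValuationSubring F) (hιO : ∀ a, ιA a ∈ O₁)
    (hunit : ∀ a : A, a ∉ P₁ → (ιA a)⁻¹ ∈ O₁) (hπ : (ιA π)⁻¹ ∉ O₁)
    {a₁ a₂ : A} (h1 : a₁ ≠ 0) (h2 : a₂ ≠ 0) (hdiv : ιA a₁ / ιA a₂ ∈ O₁) : v₁ a₂ ≤ v₁ a₁ := by
  by_contra hlt
  push Not at hlt
  -- `a₂ b = a₁ a` with `b ∉ P₁`
  obtain ⟨a, b, hb, hab⟩ := exists_cross D h2 h1 hlt.le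
  have hb0 : b ≠ 0 := fun h => hb (h ▸ P₁.zero_mem)
  have ha0 : a ≠ 0 := by
    rintro rfl
    rw [mul_zero] at hab
    exact (mul_ne_zero h2 hb0) hab
  -- `v₁ a > 0`, so `a ∈ P₁`; but `ιA a = ιA b * (a₂/a₁)`... use orders instead:
  have hv : v₁ a₂ + v₁ b = v₁ a₁ + v₁ a := by
    rw [← D.v₁_mul _ _ h2 hb0, ← D.v₁_mul _ _ h1 ha0, hab]
  have hvb : v₁ b = 0 := v₁_eq_zero_of_not_mem D hb
  have hva : 1 ≤ v₁ a := by omega
  -- `a = π * a'`?  not needed: `(ιA a)⁻¹ = (a₁/a₂) * (ιA b)⁻¹ ∈ O₁`, so `ιA a` is a unit of `O₁`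
  have hι1 : ιA a₁ ≠ 0 := fun h => h1 (hinj (by rw [h, map_zero]))
  have hι2 : ιA a₂ ≠ 0 := fun h => h2 (hinj (by rw [h, map_zero]))
  have hιa : ιA a ≠ 0 := fun h => ha0 (hinj (by rw [h, map_zero]))
  have hιb : ιA b ≠ 0 := fun h => hb0 (hinj (by rw [h, map_zero]))
  have hainv : (ιA a)⁻¹ ∈ O₁ := by
    have e : ιA a₁ / ιA a₂ * (ιA b)⁻¹ = (ιA a)⁻¹ := by
      have := congrArg ιA hab
      rw [map_mul, map_mul] at this
      apply eq_inv_of_mul_eq_one_left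
      have e1 : ιA a₁ / ιA a₂ * (ιA b)⁻¹ * ιA a = (ιA a₁ * ιA a) / (ιA a₂ * ιA b) := by ring
      rw [e1, ← this, div_self (mul_ne_zero hι2 hιb)]
    rw [← e]
    exact O₁.mul_mem _ _ hdiv (hunit b hb)
  -- but `a ∈ P₁` and `a ^ K * x ^ m * ε'^m = π ^ (K m) * b'`, `m = v₁ a ≥ 1`: then `π` is a unit
  obtain ⟨a', b', hb', hab'⟩ := exists_cross D (a₁ := a) (a₂ := π) ha0 D.pi_ne
    (by rw [D.v₁_pi]; exact hva)
  -- `a * b' = π * a'`: `(ιA π)⁻¹ = ιA a' * (ιA a)⁻¹ * (ιA b')⁻¹`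
  have hb'0 : b' ≠ 0 := fun h => hb' (h ▸ P₁.zero_mem)
  have hιb' : ιA b' ≠ 0 := fun h => hb'0 (hinj (by rw [h, map_zero]))
  have hιπ : ιA π ≠ 0 := fun h => D.pi_ne (hinj (by rw [h, map_zero]))
  apply hπ
  have e : ιA a' * ((ιA a)⁻¹ * (ιA b')⁻¹) = (ιA π)⁻¹ := by
    have := congrArg ιA hab'
    rw [map_mul, map_mul] at this
    apply eq_inv_of_mul_eq_one_left
    have e1 : ιA a' * ((ιA a)⁻¹ * (ιA b')⁻¹) * ιA π = (ιA π * ιA a') / (ιA a * ιA b') := by ring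
    rw [e1, ← this, div_self (mul_ne_zero hιa hιb')]
  rw [← e]
  exact O₁.mul_mem _ _ (hιO a') (O₁.mul_mem _ _ hainv (hunit b' hb'))

/-- **Every element of `O₁` is a fraction `ιA a / ιA b` with `b ∉ P₁`.** -/
theorem exists_frac_of_mem (D : NodeData A v₁ v₂ P₁ P₂ π x y K) (ιA : A →+* F)
    (hinj : Function.Injective ιA) (O₁ : ValuationSubring F) (hιO : ∀ a, ιA a ∈ O₁)
    (hunit : ∀ a : A, a ∉ P₁ → (ιA a)⁻¹ ∈ O₁) (hπ : (ιA π)⁻¹ ∉ O₁)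
    (hF : ∀ z : F, ∃ a₁ a₂ : A, a₂ ≠ 0 ∧ z * ιA a₂ = ιA a₁) {z : F} (hz : z ∈ O₁) :
    ∃ a b : A, b ∉ P₁ ∧ z * ιA b = ιA a := by
  by_cases hz0 : z = 0
  · refine ⟨0, 1, ?_, by rw [hz0, zero_mul, map_zero]⟩
    intro h
    exact D.prime₁.ne_top ((Ideal.eq_top_iff_one _).2 h)
  obtain ⟨a₁, a₂, h2, e⟩ := hF z
  have hι2 : ιA a₂ ≠ 0 := fun h => h2 (hinj (by rw [h, map_zero]))
  have h1 : a₁ ≠ 0 := by
    rintro rfl
    rw [map_zero] at e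
    exact (mul_ne_zero hz0 hι2) e
  have hzdiv : z = ιA a₁ / ιA a₂ := by rw [← e, mul_div_assoc, div_self hι2, mul_one]
  have hle := v₁_le_of_div_mem D ιA hinj O₁ hιO hunit hπ h1 h2 (hzdiv ▸ hz)
  obtain ⟨a, b, hb, hab⟩ := exists_cross D h1 h2 hle
  refine ⟨a, b, hb, ?_⟩
  have := congrArg ιA hab
  rw [map_mul, map_mul] at this
  apply mul_left_cancel₀ hι2
  rw [← this, hzdiv]
  field_simp

variable {κ k : Type*} [Field κ] [Field k] [Algebra κ k]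

section Res

variable (D : NodeData A v₁ v₂ P₁ P₂ π x y K) (ιA : A →+* F)
  (hinj : Function.Injective ιA) (O₁ : ValuationSubring F) (hιO : ∀ a, ιA a ∈ O₁)
  (res₁ : ↥O₁ →+* k) (hres : ∀ z : ↥O₁, ¬ IsUnit z → res₁ z = 0)
  (ker : ∀ a : A, (res₁.comp (toO O₁ ιA hιO)) a = 0 ↔ a ∈ P₁)
  (hF : ∀ z : F, ∃ a₁ a₂ : A, a₂ ≠ 0 ∧ z * ιA a₂ = ιA a₁)

include D hinj hres ker hF in
/-- **`htop` from the residue map**: if `k` is generated over `κ` by `res₁ (O₁)`, it is generated by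
`ρA (A)`, `ρA = res₁ ∘ ιA`. -/
theorem adjoin_range_eq_top
    (htop : IntermediateField.adjoin κ (Set.range res₁) = ⊤) :
    IntermediateField.adjoin κ (Set.range (res₁.comp (toO O₁ ιA hιO))) = ⊤ := by
  have hunit : ∀ a : A, a ∉ P₁ → (ιA a)⁻¹ ∈ O₁ := by
    intro a ha
    have h0 : res₁ (toO O₁ ιA hιO a) ≠ 0 := fun h => ha ((ker a).1 h)
    have hu : IsUnit (toO O₁ ιA hιO a) := by
      by_contra hnu
      exact h0 (hres _ hnu)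
    obtain ⟨w, hw⟩ := hu.exists_right_inv
    have h1 : ιA a * (w : F) = 1 := congrArg Subtype.val hw
    exact (eq_inv_of_mul_eq_one_right h1) ▸ w.2
  have hπ : (ιA π)⁻¹ ∉ O₁ := by
    intro hmem
    have h0 : res₁ (toO O₁ ιA hιO π) = 0 := (ker π).2 (pi_mem_P₁ D)
    have hιπ : ιA π ≠ 0 := fun h => D.pi_ne (hinj (by rw [h, map_zero]))
    have hu : IsUnit (toO O₁ ιA hιO π) :=
      IsUnit.of_mul_eq_one (⟨(ιA π)⁻¹, hmem⟩ : ↥O₁) (Subtype.ext (mul_inv_cancel₀ hιπ))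
    exact (hu.map res₁).ne_zero h0
  rw [eq_top_iff, ← htop, IntermediateField.adjoin_le_iff]
  rintro _ ⟨z, rfl⟩
  obtain ⟨a, b, hb, e⟩ := exists_frac_of_mem D ιA hinj O₁ hιO hunit hπ hF z.2
  have e' : z * toO O₁ ιA hιO b = toO O₁ ιA hιO a := Subtype.ext e
  have e'' := congrArg res₁ e'
  rw [map_mul] at e''
  have hb0 : res₁ (toO O₁ ιA hιO b) ≠ 0 := fun h => hb ((ker b).1 h)
  have : res₁ z = (res₁.comp (toO O₁ ιA hιO)) a / (res₁.comp (toO O₁ ιA hιO)) b := by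
    rw [RingHom.comp_apply, RingHom.comp_apply, ← e'', mul_div_assoc, div_self hb0, mul_one]
  rw [this]
  exact div_mem (IntermediateField.subset_adjoin κ _ ⟨a, rfl⟩)
    (IntermediateField.subset_adjoin κ _ ⟨b, rfl⟩)

include D hinj hres ker hF in
/-- **The weak node place over `κ̄`** from `(ker, mem, pos)`, `Frac A = F`, `k = κ(res₁ O₁)`,
`κ` algebraic over `𝔽_p`. -/
theorem nodePlaceW_of_res [IsNoetherianRing A] (p : ℕ) [Fact p.Prime] [Algebra (ZMod p) κ]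
    [Algebra.IsAlgebraic (ZMod p) κ] {v : Place κ k}
    (mem : ∀ a : A, (res₁.comp (toO O₁ ιA hιO)) a ∈ v.toValuationSubring)
    (pos : ∀ a ∈ maximalIdeal A, (res₁.comp (toO O₁ ιA hιO)) a ≠ 0 →
      1 ≤ v.ord ((res₁.comp (toO O₁ ιA hιO)) a))
    (htop : IntermediateField.adjoin κ (Set.range res₁) = ⊤) :
    NodePlaceW P₁ (res₁.comp (toO O₁ ιA hιO)) v :=
  nodePlaceW_of_constExt D p ker mem pos
    (adjoin_range_eq_top D ιA hinj O₁ hιO res₁ hres ker hF htop)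

end Res

end Fermat.Agent.T1B.Unif77
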