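/-
Programme T1B (helper77): the residue field of a valuation ring of an algebraic extension of `ℚ`
is algebraic over `𝔽_p` (input `Algebra.IsAlgebraic (ZMod p) κ̄` of `Unif77/ConstExt`, for
`κ̄ = Hecke3.Kap A = ResidueField ↥A`, `A : ValuationSubring Qbar`).  Mathlib only.
-/
import Mathlib

set_option autoImplicit false

namespace Fermat.Agent.T1B.Unif77

open Polynomial IsLocalRing

/-- A primitive integral polynomial is nonzero modulo `p`. -/
theorem map_ne_zero_of_isPrimitive (p : ℕ) [Fact p.Prime] {f : ℤ[X]} (hf : f.IsPrimitive) :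
    f.map (Int.castRingHom (ZMod p)) ≠ 0 := by
  intro h0
  have hdvd : (C (p : ℤ) : ℤ[X]) ∣ f := by
    rw [Polynomial.C_dvd_iff_dvd_coeff]
    intro i
    have := congrArg (fun q => Polynomial.coeff q i) h0
    simp only [Polynomial.coeff_map, Polynomial.coeff_zero, eq_intCast] at this
    exact (ZMod.intCast_zmod_eq_zero_iff_dvd _ p).1 this
  have hu := hf _ hdvd
  have hp : 1 < p := (Fact.out : p.Prime).one_lt
  rw [Int.isUnit_iff] at hu
  rcases hu with hu | hu <;> omega

/-- Every algebraic number is a root of a primitive integral polynomial. -/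
theorem exists_isPrimitive_aeval_eq_zero {Q : Type*} [Field Q] [CharZero Q] (a : Q)
    (ha : IsAlgebraic ℚ a) : ∃ f : ℤ[X], f.IsPrimitive ∧ aeval a f = 0 := by
  have ha' : IsAlgebraic ℤ a := (IsFractionRing.isAlgebraic_iff ℤ ℚ Q).2 ha
  obtain ⟨g, hg0, hg⟩ := ha'
  refine ⟨g.primPart, g.isPrimitive_primPart, ?_⟩
  have h1 := g.eq_C_content_mul_primPart
  rw [h1, map_mul, aeval_C] at hg
  rcases mul_eq_zero.1 hg with h | h
  · exfalso
    have hc : g.content ≠ 0 := Polynomial.content_eq_zero_iff.not.2 hg0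
    have : (algebraMap ℤ Q) g.content ≠ 0 := by
      rw [eq_intCast]; exact_mod_cast hc
    exact this h
  · exact h

/-- **The residue field of a valuation ring of an algebraic extension of `ℚ` is algebraic over
`𝔽_p`.** -/
theorem isAlgebraic_zmod_residueField {Q : Type*} [Field Q] [CharZero Q]
    [Algebra.IsAlgebraic ℚ Q] (A : ValuationSubring Q) (p : ℕ) [Fact p.Prime]
    [Algebra (ZMod p) (ResidueField ↥A)] : Algebra.IsAlgebraic (ZMod p) (ResidueField ↥A) := by
  refine ⟨fun z => ?_⟩
  obtain ⟨a, rfl⟩ := residue_surjective z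
  obtain ⟨f, hf, hfa⟩ := exists_isPrimitive_aeval_eq_zero (a : Q) (Algebra.IsAlgebraic.isAlgebraic _)
  refine ⟨f.map (Int.castRingHom (ZMod p)), map_ne_zero_of_isPrimitive p hf, ?_⟩
  -- `f(a) = 0` in `A`
  have h1 : eval₂ (Int.castRingHom ↥A) a f = 0 := by
    apply Subtype.ext
    have := Polynomial.hom_eval₂ f (Int.castRingHom ↥A) A.subtype a
    have h2 : (A.subtype.comp (Int.castRingHom ↥A)) = algebraMap ℤ Q := Subsingleton.elim _ _
    rw [h2] at this
    exact this.trans hfa
  have h3 := congrArg (residue ↥A) h1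
  rw [Polynomial.hom_eval₂, map_zero] at h3
  rw [Polynomial.aeval_def, Polynomial.eval₂_map]
  have h4 : (algebraMap (ZMod p) (ResidueField ↥A)).comp (Int.castRingHom (ZMod p)) =
      (residue ↥A).comp (Int.castRingHom ↥A) := Subsingleton.elim _ _
  rw [h4]
  exact h3

/-- The case `Q = ℚbar` (`Hecke3.Kap A = ResidueField ↥A`). -/
theorem isAlgebraic_zmod_kap (A : ValuationSubring (AlgebraicClosure ℚ)) (p : ℕ) [Fact p.Prime]
    [Algebra (ZMod p) (ResidueField ↥A)] : Algebra.IsAlgebraic (ZMod p) (ResidueField ↥A) :=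
  haveI : Algebra.IsAlgebraic ℚ (AlgebraicClosure ℚ) := AlgebraicClosure.isAlgebraic ℚ
  isAlgebraic_zmod_residueField A p

end Fermat.Agent.T1B.Unif77
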