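/-
Programme T1B, NODE PLACES over `κ̄` (helper77): the generation hypothesis
`htop : κ̄(res₁ O₁) = FullC κ̄ M'` of `Unif77/Frac.nodePlaceW_of_res`, for the concrete residue map
`res₁ = resK ∘ valHom ψ` of a finite level `ψ : F₁ →+* F₂` (e.g. `FK N L → FF N`): it holds as soon
as every `j(q^d)`, `d ∣ M'`, is an expansion of an element of `F₁`.
-/
import Mathlib
import Fermat.Agent.T1B.Hecke16.ResFieldEq
import Fermat.Agent.T1B.Hol80.HolLog
import Fermat.Agent.T1B.Hol80.R1Rho

set_option autoImplicit false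
set_option linter.unusedSectionVars false
set_option linter.unusedVariables false

noncomputable section

open HahnSeries ModularCurve IntermediateField

namespace Fermat.Agent.T1B.Unif77

open Fermat.Agent.X0 Fermat.Agent.T1B.Hecke3 Fermat.Agent.T1B.Hecke16 Fermat.Agent.T1B.Hol80

variable {F₁ F₂ : Type*} [Field F₁] [Field F₂] (A : ValuationSubring Kbar)
  (ψ : F₁ →+* F₂) (e : F₂ →+* LaurentSeries Kbar)
  (H : ∀ f : F₂, f ≠ 0 → Normalisable A (e f))

/-- **`κ̄(res₁ O₁) = FullC κ̄ M'`** for `res₁ = resK ∘ valHom ψ`, `O₁ = ψ⁻¹ (gaussVal)`. -/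
theorem adjoin_range_resK_comp_eq_top (M' : ℕ) [NeZero M']
    (hrange : ∀ x : ↥(gaussVal A e H), gaussResV A e H x ∈ modularFunctionFieldFullC (Kap A) M')
    (O₁ : ValuationSubring F₁) (hO : ∀ x ∈ O₁, ψ x ∈ gaussVal A e H)
    (hO' : ∀ x : F₁, ψ x ∈ gaussVal A e H → x ∈ O₁)
    (hj : ∀ (d : ℕ) [NeZero d], d ∣ M' → ∃ x : F₁, e (ψ x) = qExpand Kbar d (jqModC Kbar)) :
    IntermediateField.adjoin (Kap A)
      (Set.range ((resK H M' hrange).comp (valHom ψ O₁ (gaussVal A e H) hO))) = ⊤ := by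
  set r := (resK H M' hrange).comp (valHom ψ O₁ (gaussVal A e H) hO) with hr
  set T := IntermediateField.adjoin (Kap A) (Set.range r) with hT
  -- the image of `T` in `κ̄((q))` contains the generators of `FullC`
  have hle : modularFunctionFieldFullC (Kap A) M' ≤
      T.map (modularFunctionFieldFullC (Kap A) M').val := by
    unfold modularFunctionFieldFullC
    rw [IntermediateField.adjoin_le_iff]
    rintro _ ⟨d, hd, hdM, rfl⟩
    obtain ⟨x, hx⟩ := hj d hdM
    have hxV : ψ x ∈ gaussVal A e H := (qjGauss A e hx).2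
    have hxO : x ∈ O₁ := hO' x hxV
    refine ⟨r ⟨x, hxO⟩, IntermediateField.subset_adjoin _ _ ⟨_, rfl⟩, ?_⟩
    show gaussResV A e H (valHom ψ O₁ (gaussVal A e H) hO ⟨x, hxO⟩) = _
    rw [gaussResV_apply, ← gaussRes_qjGauss A e hx]
    rfl
  rw [eq_top_iff]
  intro y _
  obtain ⟨t, ht, hty⟩ := hle y.2
  have : t = y := Subtype.ext hty
  rw [← this]
  exact ht

end Fermat.Agent.T1B.Unif77
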