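/-
Programme T1B, NODE PLACES over `κ̄` (helper77): instantiation (I1) of `Unif77/ResTop` at a finite
level `F₁ = FK N K`, `ψ = baseChangeHom N K`, `e = coeHom N` (`= Hecke3.iotaHom N`), `N = M' * q`,
`O₁ = O1 M' q hπ hE` (the branch at `∞` of `ES/N34/ModelDefs9`):

* `exists_expansion_eq_qj` : `j(q^d) ∈ ψ (FK N K)` for `d ∣ N`;
* `mem_gaussVal_of_mem_O1`, `mem_O1_of_mem_gaussVal` : `O1 = ψ⁻¹ (gaussVal)`;
* `adjoin_range_res_O1_eq_top` : **`κ̄(res₁ O1) = FullC κ̄ M'`** for
  `res₁ = resK ∘ valHom ψ O1 (gaussVal) _`.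
-/
import Mathlib
import Fermat.Agent.T1B.Unif77.ResTop
import Fermat.Agent.T1B.GaussW77.Finite
import Fermat.Agent.RED.PUR.DegBaseChange25

set_option autoImplicit false
set_option linter.unusedSectionVars false
set_option linter.unusedVariables false

noncomputable section

open HahnSeries ModularCurve IntermediateField

namespace Fermat.Agent.T1B.Unif77

open Fermat.Agent.RED.Interface4 Fermat.Agent.RED.PUR.GaussGen8
open Fermat.Agent.RED.DESC.PlaceExtend27
open Fermat.Agent.ES.N34.ModelDefs9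
open Fermat.Agent.T1B.Hecke3 Fermat.Agent.T1B.GaussW77 Fermat.Agent.T1B.Hol80

variable {A : ValuationSubring Qbar} {K : IntermediateField ℚ Qbar}

/-- **`j(q^d)` is an expansion of an element of `FK N K`** (`d ∣ N`). -/
theorem exists_expansion_eq_qj (N : ℕ) {d : ℕ} [NeZero d] (hd : d ∣ N) :
    ∃ x : FK N K, coeHom N (baseChangeHom N K x) = qExpand Qbar d (jqModC Qbar) := by
  have hmem : qExpand K d (jqModC K) ∈ FK N K := by
    show _ ∈ laurentBaseChange K (modularFunctionFieldFull N)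
    rw [Fermat.Agent.RED.PUR.DegBaseChange25.laurentBaseChange_full_eq]
    exact jqModCd_mem_full K N hd
  refine ⟨⟨_, hmem⟩, ?_⟩
  show ((baseChangeHom N K ⟨_, hmem⟩ : Fbar N) : LaurentSeries Qbar) = _
  rw [coe_baseChangeHom]
  show coeffMap (algebraMap K Qbar) (qExpand K d (jqModC K)) = _
  rw [Fermat.Agent.ES.RED.ResidueUnion1.coeffMap_qExpand', coeffMap_jqModC]

variable (M' q : ℕ) [NeZero M'] [NeZero q] {π : ↥(AK A K)}

theorem mem_gaussVal_of_mem_O1 (hπ : IsUnif (AK A K) π)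
    (hE : FK (M' * q) K ≤ fracField (AK A K))
    (H : ∀ f : Fbar (M' * q), f ≠ 0 → Normalisable A (coeHom (M' * q) f))
    (x : FK (M' * q) K) (hx : x ∈ O1 M' q hπ hE) :
    baseChangeHom (M' * q) K x ∈ gaussVal A (coeHom (M' * q)) H := by
  rw [← comap_gaussVal_coe_eq_O1 M' q hπ hE H] at hx
  exact hx

theorem mem_O1_of_mem_gaussVal (hπ : IsUnif (AK A K) π)
    (hE : FK (M' * q) K ≤ fracField (AK A K))
    (H : ∀ f : Fbar (M' * q), f ≠ 0 → Normalisable A (coeHom (M' * q) f))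
    (x : FK (M' * q) K) (hx : baseChangeHom (M' * q) K x ∈ gaussVal A (coeHom (M' * q)) H) :
    x ∈ O1 M' q hπ hE := by
  rw [← comap_gaussVal_coe_eq_O1 M' q hπ hE H]
  exact hx

/-- **`κ̄(res₁ O1) = FullC κ̄ M'`** at every finite level `K`. -/
theorem adjoin_range_res_O1_eq_top (hπ : IsUnif (AK A K) π)
    (hE : FK (M' * q) K ≤ fracField (AK A K))
    (H : ∀ f : Fbar (M' * q), f ≠ 0 → Normalisable A (coeHom (M' * q) f))
    (hrange : ∀ x : ↥(gaussVal A (coeHom (M' * q)) H),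
      gaussResV A (coeHom (M' * q)) H x ∈ modularFunctionFieldFullC (Kap A) M') :
    IntermediateField.adjoin (Kap A)
      (Set.range ((resK H M' hrange).comp
        (valHom (baseChangeHom (M' * q) K) (O1 M' q hπ hE) (gaussVal A (coeHom (M' * q)) H)
          (mem_gaussVal_of_mem_O1 M' q hπ hE H)))) = ⊤ :=
  adjoin_range_resK_comp_eq_top A (baseChangeHom (M' * q) K) (coeHom (M' * q)) H M' hrange
    (O1 M' q hπ hE) (mem_gaussVal_of_mem_O1 M' q hπ hE H) (mem_O1_of_mem_gaussVal M' q hπ hE H)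
    (fun d _ hd => exists_expansion_eq_qj (M' * q) (hd.mul_right q))

end Fermat.Agent.T1B.Unif77
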