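/-
Programme T1B, NODE PLACES over `κ̄` (helper77): the CONCRETE node package of chart `0` of the nodal
model `ES/N34/ModelDefs9` at a finite level `K`, for the branch at `∞`:

  `B = B0 A q ht ⊂ F = FK (M' * q) K`, `O₁ = O1`, `O₂ = O2`,
  `res₁ = res1K := resK ∘ valHom (baseChangeHom N K) O1 (gaussVal A (coeHom N) H)`  into
  `k = FullC κ̄ M'`, `κ̄ = Kap A`.

Inputs kept as hypotheses (owners): `hL : NodalNumData …` (ES/N34, gives noetherianity and
`Frac B0 = F`), `hN : NodalChartHyp …` (helper37 ThickNF / helper80), `H` (normalisability, helper95),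
`hrange` (RESFIELD-ID, helper16), `hdeg` (`Hecke87.CharPX0Final.deg_eq_one_fullC`).

* `res1K`, `res1K_eq_zero_of_not_isUnit` (`hres`), `frac_B0` (`hF`), `adjoin_range_res1K` (`htop`);
* `nodeHP_K` : **`NodePlaceW` at every place-indexed node** (`Brandt96.nodeHP` instantiated).
-/
import Mathlib
import Fermat.Agent.T1B.Unif77.Level
import Fermat.Agent.T1B.Unif77.KapAlg
import Fermat.Agent.T1B.Brandt96.CentrePkg
import Fermat.Agent.ES.N34.NumData13
import Fermat.Agent.T1.Assembly41.FastInst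

set_option autoImplicit false
set_option linter.unusedSectionVars false
set_option linter.unusedVariables false
set_option linter.style.haveILetI false

noncomputable section

open HahnSeries ModularCurve IntermediateField AlgebraicCurve

namespace Fermat.Agent.T1B.Unif77

open Fermat.Agent.RED.Interface4 Fermat.Agent.RED.PUR.GaussGen8
open Fermat.Agent.RED.PUR.ChartGeneric22
open Fermat.Agent.RED.DESC.PlaceExtend27
open Fermat.Agent.RED.BASE.EtaQuot12
open Fermat.Agent.ES.N34.ModelDefs9 Fermat.Agent.ES.N34.NumData13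
open Fermat.Agent.T1B.Hecke3 Fermat.Agent.T1B.GaussW77 Fermat.Agent.T1B.Hol80
open Fermat.Agent.T1B.Brandt96
open scoped Fermat.Agent.T1.Assembly41.FastInst

variable {A : ValuationSubring Qbar} {K : IntermediateField ℚ Qbar}
variable (M' q : ℕ) [NeZero M'] [NeZero q] {π : ↥(AK A K)}
variable (hπ : IsUnif (AK A K) π) (hE : FK (M' * q) K ≤ fracField (AK A K))
  (H : ∀ f : Fbar (M' * q), f ≠ 0 → Normalisable A (coeHom (M' * q) f))
  (hrange : ∀ x : ↥(gaussVal A (coeHom (M' * q)) H),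
    gaussResV A (coeHom (M' * q)) H x ∈ modularFunctionFieldFullC (Kap A) M')

/-- **The residue map of the branch at `∞`**, from the finite level `K` to `FullC κ̄ M'`. -/
def res1K : ↥(O1 M' q hπ hE) →+* ↥(modularFunctionFieldFullC (Kap A) M') :=
  (resK H M' hrange).comp
    (valHom (baseChangeHom (M' * q) K) (O1 M' q hπ hE) (gaussVal A (coeHom (M' * q)) H)
      (mem_gaussVal_of_mem_O1 M' q hπ hE H))

/-- `hres`: nonunits of `O1` have residue `0`. -/
theorem res1K_eq_zero_of_not_isUnit (z : ↥(O1 M' q hπ hE)) (hz : ¬ IsUnit z) :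
    res1K M' q hπ hE H hrange z = 0 := by
  apply Subtype.ext
  show gaussResV A (coeHom (M' * q)) H _ = 0
  rw [gaussResV_eq_zero_iff]
  intro hu
  apply hz
  -- the inverse of `ψ z` in `V₂` comes from `O1`
  obtain ⟨w, hw⟩ := hu.exists_right_inv
  have h1 : baseChangeHom (M' * q) K (z : FK (M' * q) K) * (w : Fbar (M' * q)) = 1 :=
    congrArg Subtype.val hw
  have hz0 : (z : FK (M' * q) K) ≠ 0 := by
    intro h0
    rw [h0, map_zero, zero_mul] at h1
    exact zero_ne_one h1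
  have hw' : (w : Fbar (M' * q)) = baseChangeHom (M' * q) K ((z : FK (M' * q) K)⁻¹) := by
    rw [map_inv₀]
    exact eq_inv_of_mul_eq_one_right h1
  have hinv : ((z : FK (M' * q) K))⁻¹ ∈ O1 M' q hπ hE :=
    mem_O1_of_mem_gaussVal M' q hπ hE H _ (hw' ▸ w.2)
  exact IsUnit.of_mul_eq_one (⟨_, hinv⟩ : ↥(O1 M' q hπ hE)) (Subtype.ext (mul_inv_cancel₀ hz0))

/-- `htop`. -/
theorem adjoin_range_res1K :
    IntermediateField.adjoin (Kap A) (Set.range (res1K M' q hπ hE H hrange)) = ⊤ :=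
  adjoin_range_res_O1_eq_top M' q hπ hE H hrange

variable {n e : ℕ} [NeZero n] (ht : tq (↥K) n e ∈ FK M' K)

/-- `hF`: `Frac B0 = F`. -/
theorem frac_B0 (hL : NodalNumData ↥(AK A K) ↥K ↥(FK (M' * q) K) π (tN q ht) (B0 A q ht) (B1 A q ht)
      (O1 M' q hπ hE) (O2 M' q hπ hE)) (z : ↥(FK (M' * q) K)) :
    ∃ b₁ b₂ : ↥(B0 A q ht), b₂ ≠ 0 ∧
      z * algebraMap ↥(B0 A q ht) ↥(FK (M' * q) K) b₂ =
        algebraMap ↥(B0 A q ht) ↥(FK (M' * q) K) b₁ := by
  obtain ⟨a, ha, b, hb, hb0, h⟩ := hL.frac0 z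
  exact ⟨⟨a, ha⟩, ⟨b, hb⟩, fun h0 => hb0 (congrArg Subtype.val h0), h⟩

/-- **The weak node places of chart `0` over `κ̄`, concretely.** -/
theorem nodeHP_K
    (hL : NodalNumData ↥(AK A K) ↥K ↥(FK (M' * q) K) π (tN q ht) (B0 A q ht) (B1 A q ht)
      (O1 M' q hπ hE) (O2 M' q hπ hE))
    {Kth : ℕ} (hN : NodalChartHyp (algebraMap ↥(AK A K) ↥(B0 A q ht) π) (O1 M' q hπ hE)
      (O2 M' q hπ hE) Kth)
    [Fact q.Prime] [Algebra (ZMod q) (Kap A)]
    (hdeg : ∀ v : Place (Kap A) ↥(modularFunctionFieldFullC (Kap A) M'), v.deg = 1)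
    (e' : NodeIdx (Kap A) hN.chart (res1K M' q hπ hE H hrange)) :
    haveI := hL.noeth0
    NodePlaceW
      (Fermat.Agent.T1B.NodeNF37.Local.PP (algebraMap ↥(B0 A q ht) ↥(FK (M' * q) K)) hN.chart.inj
        (nodeIdeal e') (nodeH₁ (res1K_eq_zero_of_not_isUnit M' q hπ hE H hrange) e'))
      ((res1K M' q hπ hE H hrange).comp
        (toO (O1 M' q hπ hE)
          (Fermat.Agent.T1B.NodeNF37.Local.iota (algebraMap ↥(B0 A q ht) ↥(FK (M' * q) K))
            hN.chart.inj (nodeIdeal e'))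
          (Fermat.Agent.T1B.NodeNF37.Local.iota_mem (algebraMap ↥(B0 A q ht) ↥(FK (M' * q) K))
            hN.chart.inj (nodeIdeal e')
            (nodeH₁ (res1K_eq_zero_of_not_isUnit M' q hπ hE H hrange) e')))) e'.1 := by
  haveI := hL.noeth0
  haveI : Algebra.IsAlgebraic (ZMod q) (Kap A) := isAlgebraic_zmod_kap A q
  exact nodeHP hN (res1K M' q hπ hE H hrange)
    (res1K_eq_zero_of_not_isUnit M' q hπ hE H hrange) q hdeg (frac_B0 M' q hπ hE ht hL)
    (adjoin_range_res1K M' q hπ hE H hrange) e'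

end Fermat.Agent.T1B.Unif77
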