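/-
Programme T1B, NODE PLACES over `κ̄` (helper77): the remaining concrete inputs of
`Brandt55/W3Glue` and `Brandt96/CentrePkg` for the residue map `res1K` of `Unif77/Concrete`:

* `res1K_ne_zero_of_isUnit`          (`hres'`): `res1K z = 0 → ¬ IsUnit z`;
* `res1K_const`, `exists_resChart_const` (`hκ`, hence `hconst`): constants of `A ∩ K` reduce to
  constants of `κ̄`;
* `isIntegral_adjoin_subalgebra`, `isIntegral_B0` (`hint`): `B0` is integral over `R[t_N]`, in the
  shape `∀ b : B, IsIntegral (Algebra.adjoin R {t}) b` (`t : B`);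
* `frac_of_equiv` : transport of `hF` (`Frac B = F`) along a ring isomorphism `σ : B ≃+* B'`
  compatible with the maps to `F` (e.g. `O ⊗[W] B0 ≃ B0'`).
-/
import Mathlib
import Fermat.Agent.T1B.Unif77.Concrete

set_option autoImplicit false
set_option linter.unusedSectionVars false
set_option linter.unusedVariables false
set_option linter.style.haveILetI false

noncomputable section

open HahnSeries ModularCurve IntermediateField AlgebraicCurve Polynomial

namespace Fermat.Agent.T1B.Unif77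

/-! ### Generic lemmas -/

section Generic

/-- Integrality over `R[s] ⊂ F` of an element of a subalgebra `S ∋ s`, restated inside `S`. -/
theorem isIntegral_adjoin_subalgebra {R F : Type*} [CommRing R] [CommRing F] [Algebra R F]
    (S : Subalgebra R F) (s : F) (hs : s ∈ S) (a : S)
    (h : IsIntegral (Algebra.adjoin R {s}) (a : F)) :
    IsIntegral (Algebra.adjoin R {(⟨s, hs⟩ : S)}) a := by
  obtain ⟨P, hPm, hP⟩ := h
  let gF : R[X] →ₐ[R] Algebra.adjoin R {s} :=
    (aeval s).codRestrict _ (fun p => by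
      rw [Algebra.adjoin_singleton_eq_range_aeval]; exact ⟨p, rfl⟩)
  have hgF : Function.Surjective gF := by
    rintro ⟨x, hx⟩
    rw [Algebra.adjoin_singleton_eq_range_aeval] at hx
    obtain ⟨p, rfl⟩ := hx
    exact ⟨p, rfl⟩
  have hl : P ∈ lifts gF.toRingHom := by
    rw [lifts_iff_coeff_lifts]
    intro n
    exact hgF _
  obtain ⟨Q, hQ, -, hQm⟩ := lifts_and_natDegree_eq_and_monic hl hPm
  let gS : R[X] →ₐ[R] Algebra.adjoin R {(⟨s, hs⟩ : S)} :=
    (aeval (⟨s, hs⟩ : S)).codRestrict _ (fun p => by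
      rw [Algebra.adjoin_singleton_eq_range_aeval]; exact ⟨p, rfl⟩)
  refine ⟨Q.map gS.toRingHom, hQm.map _, ?_⟩
  apply Subtype.ext
  rw [eval₂_map]
  have h1 := hom_eval₂ Q ((algebraMap (↥(Algebra.adjoin R {(⟨s, hs⟩ : S)})) ↥S).comp gS.toRingHom)
    (S.val : ↥S →+* F) a
  refine h1.trans ?_
  show _ = (0 : F)
  rw [← hP, ← hQ, eval₂_map]
  congr 1
  apply Polynomial.ringHom_ext
  · intro r
    show ((aeval (⟨s, hs⟩ : S) (C r) : S) : F) = ((gF (C r) : Algebra.adjoin R {s}) : F)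
    show _ = aeval s (C r)
    rw [aeval_C, aeval_C]
    rfl
  · show ((aeval (⟨s, hs⟩ : S) X : S) : F) = aeval s X
    rw [aeval_X, aeval_X]

/-- Transport of `Frac B' = F` along `σ : B ≃+* B'` over `F`. -/
theorem frac_of_equiv {B B' F : Type*} [CommRing B] [CommRing B'] [Field F] [Algebra B F]
    [Algebra B' F] (σ : B ≃+* B') (hσ : ∀ b, algebraMap B' F (σ b) = algebraMap B F b)
    (h : ∀ z : F, ∃ b₁ b₂ : B', b₂ ≠ 0 ∧ z * algebraMap B' F b₂ = algebraMap B' F b₁) (z : F) :
    ∃ b₁ b₂ : B, b₂ ≠ 0 ∧ z * algebraMap B F b₂ = algebraMap B F b₁ := by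
  obtain ⟨b₁, b₂, h0, e⟩ := h z
  refine ⟨σ.symm b₁, σ.symm b₂, fun h => h0 ?_, ?_⟩
  · have := congrArg σ h
    rwa [σ.apply_symm_apply, map_zero] at this
  · rw [← hσ, ← hσ, σ.apply_symm_apply, σ.apply_symm_apply]
    exact e

end Generic

open Fermat.Agent.RED.Interface4 Fermat.Agent.RED.PUR.GaussGen8
open Fermat.Agent.RED.PUR.ChartGeneric22
open Fermat.Agent.RED.DESC.PlaceExtend27
open Fermat.Agent.RED.BASE.EtaQuot12
open Fermat.Agent.ES.N34.ModelDefs9 Fermat.Agent.ES.N34.NumData13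
open Fermat.Agent.T1B.Hecke3 Fermat.Agent.T1B.GaussW77 Fermat.Agent.T1B.Hol80
open Fermat.Agent.T1B.Brandt96
open scoped Fermat.Agent.T1.Assembly41.FastInst

variable {A : ValuationSubring Qbar} {K : IntermediateField ℚ Qbar}
variable (M' q : ℕ) [NeZero M'] [NeZero q] {π : ↥(AK A K)}
variable (hπ : IsUnif (AK A K) π) (hE : FK (M' * q) K ≤ fracField (AK A K))
  (H : ∀ f : Fbar (M' * q), f ≠ 0 → Normalisable A (coeHom (M' * q) f))
  (hrange : ∀ x : ↥(gaussVal A (coeHom (M' * q)) H),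
    gaussResV A (coeHom (M' * q)) H x ∈ modularFunctionFieldFullC (Kap A) M')

/-- `hres'`: an element of `O1` with residue `0` is not a unit. -/
theorem res1K_ne_zero_of_isUnit (z : ↥(O1 M' q hπ hE))
    (h0 : res1K M' q hπ hE H hrange z = 0) : ¬ IsUnit z :=
  fun hu => (hu.map (res1K M' q hπ hE H hrange)).ne_zero h0

/-- the constant `a ∈ A ∩ K` as an element of `A`. -/
def constA (a : ↥(AK A K)) : ↥A := ⟨algebraMap K Qbar (a : K), a.2⟩

theorem coeHom_algebraMap (N : ℕ) (c : Qbar) :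
    coeHom N (algebraMap Qbar (Fbar N) c) = HahnSeries.C c := by
  show algebraMap Qbar (LaurentSeries Qbar) c = HahnSeries.C c
  rw [algebraMap_laurentSeries_eq_single, HahnSeries.C_apply]

/-- **Constants reduce to constants.** -/
theorem res1K_const (a : ↥(AK A K))
    (h : algebraMap ↥(AK A K) ↥(FK (M' * q) K) a ∈ O1 M' q hπ hE) :
    res1K M' q hπ hE H hrange ⟨algebraMap ↥(AK A K) ↥(FK (M' * q) K) a, h⟩ =
      algebraMap (Kap A) ↥(modularFunctionFieldFullC (Kap A) M')
        (IsLocalRing.residue ↥A (constA a)) := by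
  apply Subtype.ext
  show gaussResV A (coeHom (M' * q)) H _ = algebraMap (Kap A) (LaurentSeries (Kap A)) _
  rw [algebraMap_laurentSeries_eq_single, ← HahnSeries.C_apply, gaussResV_apply]
  have hx : baseChangeHom (M' * q) K (algebraMap ↥(AK A K) ↥(FK (M' * q) K) a) =
      algebraMap Qbar (Fbar (M' * q)) ((constA a : ↥A) : Qbar) := by
    rw [IsScalarTower.algebraMap_apply ↥(AK A K) ↥K ↥(FK (M' * q) K), baseChangeHom_algebraMap]
    rfl
  have hmem : algebraMap Qbar (Fbar (M' * q)) ((constA a : ↥A) : Qbar) ∈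
      gaussSub A (coeHom (M' * q)) := by
    rw [← hx]
    exact mem_gaussVal_of_mem_O1 M' q hπ hE H _ h
  rw [← gaussRes_const (algebraMap Qbar (Fbar (M' * q))) (coeHom_algebraMap (M' * q)) (constA a) hmem]
  congr 1
  exact Subtype.ext hx

variable {n e : ℕ} [NeZero n] (ht : tq (↥K) n e ∈ FK M' K)

/-- `hκ` (hence `hconst`) for chart `0`. -/
theorem exists_resChart_const
    (hle : ∀ b : ↥(B0 A q ht), algebraMap ↥(B0 A q ht) ↥(FK (M' * q) K) b ∈ O1 M' q hπ hE)
    (a : ↥(AK A K)) :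
    ∃ c : Kap A, resChart (res1K M' q hπ hE H hrange) hle (algebraMap ↥(AK A K) ↥(B0 A q ht) a) =
      algebraMap (Kap A) ↥(modularFunctionFieldFullC (Kap A) M') c :=
  ⟨_, res1K_const M' q hπ hE H hrange a (hle (algebraMap ↥(AK A K) ↥(B0 A q ht) a))⟩

/-- the Hauptmodul as an element of chart `0`. -/
def tB0 : ↥(B0 A q ht) := ⟨tN q ht, self_mem_chart _⟩

/-- `hint`: chart `0` is integral over `R[t_N]`. -/
theorem isIntegral_B0 (b : ↥(B0 A q ht)) :
    IsIntegral (Algebra.adjoin ↥(AK A K) {tB0 (A := A) M' q ht}) b :=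
  isIntegral_adjoin_subalgebra (B0 A q ht) (tN q ht) (self_mem_chart _) b (mem_chart_iff.1 b.2)

end Fermat.Agent.T1B.Unif77
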