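/-
Programme T1B, NODE PLACES over `κ̄` (helper77): **a constant field extension is unramified.**

Setting: `k / κ` a function field with a place `v`; `A` a local ring with a ring hom `ρ : A →+* k`
landing in `O_v`, local (`ρ (𝔪_A) ⊆ 𝔪_v`), such that `ρ(𝔪_A) = ρ(x) ρ(A)` for ONE `x ∈ 𝔪_A`
(`ρ(A) ≅ A / ker ρ` is a DVR with uniformiser `x̄`: the branch of a node).  If `k` is generated over
`κ` by `ρ(A)` (as a field) and `κ` is algebraic and separable over a subfield `κ₀` whose elements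
lift to `A` — e.g. `κ₀ = 𝔽_p` —, then `ρ x` is a uniformiser at `v`:

  `ord_eq_one_of_constExt : v.ord (ρ x) = 1`.

No assumption `k = Frac ρ(A)` (which fails when `κ = κ̄` and `A` lives over a finite field).
-/
import Mathlib
import Fermat.Agent.X0.FFDict

set_option autoImplicit false
set_option linter.unusedSectionVars false
set_option linter.unusedVariables false
set_option linter.style.haveILetI false

noncomputable section

namespace Fermat.Agent.T1B.Unif77

open AlgebraicCurve IsLocalRing Polynomial IntermediateField Fermat.Agent.X0.FF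

variable {A : Type*} [CommRing A] [IsLocalRing A]
variable {κ k : Type*} [Field κ] [Field k] [Algebra κ k]

/-- The hypotheses: `ρ : A → O_v` local, and `ρ(𝔪_A) = ρ(x) ρ(A)`. -/
structure Hyp (v : Place κ k) (ρ : A →+* k) (x : A) : Prop where
  mem : ∀ a, ρ a ∈ v.toValuationSubring
  pos : ∀ a ∈ maximalIdeal A, ρ a ≠ 0 → 1 ≤ v.ord (ρ a)
  hx : x ∈ maximalIdeal A
  hx0 : ρ x ≠ 0
  gen : ∀ a ∈ maximalIdeal A, ∃ a', ρ a = ρ x * ρ a'

variable {v : Place κ k} {ρ : A →+* k} {x : A}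

/-- evaluation of `P ∈ A[X]` at the constant `α ∈ κ`, through `ρ`. -/
def ev (ρ : A →+* k) (α : κ) (P : A[X]) : k := eval₂ ρ (algebraMap κ k α) P

namespace Hyp

variable (H : Hyp v ρ x)

/-- `ρ` with codomain the valuation ring. -/
def rhoO : A →+* v.toValuationSubring :=
  ρ.codRestrict v.toValuationSubring.toSubring H.mem

@[simp] theorem coe_rhoO (a : A) : ((H.rhoO a : v.toValuationSubring) : k) = ρ a := rfl

/-- evaluation inside the valuation ring. -/
def evO (α : κ) (P : A[X]) : v.toValuationSubring :=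
  eval₂ H.rhoO (algebraMap κ v.toValuationSubring α) P

theorem coe_evO (α : κ) (P : A[X]) : ((H.evO α P : v.toValuationSubring) : k) = ev ρ α P := by
  have := Polynomial.hom_eval₂ P H.rhoO v.toValuationSubring.subtype
    (algebraMap κ v.toValuationSubring α)
  exact this

include H in
theorem ev_mem (α : κ) (P : A[X]) : ev ρ α P ∈ v.toValuationSubring := by
  rw [← H.coe_evO]; exact SetLike.coe_mem _

/-- `A → κ(v)`. -/
def phi : A →+* v.ResidueField := (residue v.toValuationSubring).comp H.rhoO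

theorem phi_eq_zero {a : A} (ha : a ∈ maximalIdeal A) : H.phi a = 0 := by
  show residue v.toValuationSubring (H.rhoO a) = 0
  rw [residue_eq_zero_iff, mem_maximalIdeal_iff]
  by_cases h0 : ρ a = 0
  · left; exact Subtype.ext h0
  · right
    have := H.pos a ha h0
    show 0 < v.ord (ρ a)
    omega

/-- `κ(A) → κ(v)`. -/
def iota : ResidueField A →+* v.ResidueField :=
  Ideal.Quotient.lift (maximalIdeal A) H.phi (fun a ha => H.phi_eq_zero ha)

@[simp] theorem iota_residue (a : A) : H.iota (residue A a) = H.phi a :=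
  Ideal.Quotient.lift_mk _ _ _

theorem iota_comp : H.iota.comp (residue A) = H.phi := RingHom.ext H.iota_residue

/-- the residue of the constant `α`. -/
def abar (v : Place κ k) (α : κ) : v.ResidueField :=
  residue v.toValuationSubring (algebraMap κ v.toValuationSubring α)

theorem res_evO (α : κ) (P : A[X]) :
    residue v.toValuationSubring (H.evO α P) =
      eval₂ H.iota (abar v α) (P.map (residue A)) := by
  rw [Polynomial.eval₂_map, H.iota_comp]
  exact Polynomial.hom_eval₂ P H.rhoO (residue v.toValuationSubring) _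

include H in
/-- a polynomial with coefficients in `𝔪_A` evaluates into `ρ(x) ρ(A)[α]`. -/
theorem exists_ev_eq_mul (α : κ) (T : A[X]) (hT : T.map (residue A) = 0) :
    ∃ T₁ : A[X], ev ρ α T = ρ x * ev ρ α T₁ := by
  classical
  have hmem : ∀ i, T.coeff i ∈ maximalIdeal A := by
    intro i
    have := congrArg (fun q => Polynomial.coeff q i) hT
    simp only [Polynomial.coeff_map, Polynomial.coeff_zero] at this
    exact (residue_eq_zero_iff _).1 this
  choose f hf using fun i => H.gen (T.coeff i) (hmem i)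
  refine ⟨∑ i ∈ T.support, Polynomial.monomial i (f i), ?_⟩
  unfold ev
  rw [Polynomial.eval₂_finsetSum, Polynomial.eval₂_eq_sum, Polynomial.sum_def, Finset.mul_sum]
  refine Finset.sum_congr rfl fun i _ => ?_
  rw [Polynomial.eval₂_monomial, hf i]
  ring

/-- **The key step.**  If `P(α) ∈ 𝔪_v` then `d · P(α) = ρ(x) · s'` with `d, s' ∈ ρ(A)[α]`, `d` a unit
at `v`. -/
theorem key (α : κ) (g : A[X]) (hg : ev ρ α g = 0) (hsep : (g.map (residue A)).Separable)
    (P : A[X]) (hP : H.evO α P ∈ maximalIdeal v.toValuationSubring) :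
    ∃ c S' : A[X], H.evO α c ∉ maximalIdeal v.toValuationSubring ∧
      ev ρ α c * ev ρ α P = ρ x * ev ρ α S' := by
  classical
  letI : Algebra (ResidueField A) v.ResidueField := H.iota.toAlgebra
  have halg : ∀ q : (ResidueField A)[X], aeval (abar v α) q = eval₂ H.iota (abar v α) q :=
    fun q => rfl
  set gb := g.map (residue A) with hgb
  have hgb0 : aeval (abar v α) gb = 0 := by
    rw [halg, hgb, ← H.res_evO]
    have : H.evO α g = 0 := Subtype.ext (by rw [H.coe_evO, hg]; rfl)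
    rw [this, map_zero]
  have hint : IsIntegral (ResidueField A) (abar v α) :=
    IsAlgebraic.isIntegral (⟨gb, hsep.ne_zero, hgb0⟩ : IsAlgebraic (ResidueField A) (abar v α))
  obtain ⟨cb, hcb⟩ := minpoly.dvd (ResidueField A) (abar v α) hgb0
  set hb := minpoly (ResidueField A) (abar v α) with hhb
  have hcop : IsCoprime hb cb := by
    rw [hcb] at hsep
    exact hsep.isCoprime
  have hPb0 : aeval (abar v α) (P.map (residue A)) = 0 := by
    rw [halg, ← H.res_evO]
    exact (residue_eq_zero_iff _).2 hP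
  obtain ⟨Qb, hQb⟩ := minpoly.dvd (ResidueField A) (abar v α) hPb0
  obtain ⟨h, hh⟩ := Polynomial.map_surjective (residue A) residue_surjective hb
  obtain ⟨c, hc⟩ := Polynomial.map_surjective (residue A) residue_surjective cb
  obtain ⟨Q, hQ⟩ := Polynomial.map_surjective (residue A) residue_surjective Qb
  obtain ⟨P₁, hP₁⟩ := H.exists_ev_eq_mul α (P - h * Q) (by
    rw [Polynomial.map_sub, Polynomial.map_mul, hh, hQ, hQb, sub_self])
  obtain ⟨G₁, hG₁⟩ := H.exists_ev_eq_mul α (g - h * c) (by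
    rw [Polynomial.map_sub, Polynomial.map_mul, hh, hc, ← hgb, hcb, sub_self])
  refine ⟨c, c * P₁ - G₁ * Q, ?_, ?_⟩
  · -- `c(α)` is a unit at `v`
    intro hmem
    have h0 : aeval (abar v α) cb = 0 := by
      rw [halg, ← hc, ← H.res_evO]
      exact (residue_eq_zero_iff _).2 hmem
    obtain ⟨a, b, hab⟩ := hcop
    have := congrArg (aeval (abar v α)) hab
    rw [map_add, map_mul, map_mul, h0, hhb, minpoly.aeval, mul_zero, mul_zero, add_zero,
      map_one] at this
    exact zero_ne_one this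
  · unfold ev at *
    rw [Polynomial.eval₂_sub, Polynomial.eval₂_mul] at hP₁ hG₁
    rw [hg] at hG₁
    rw [Polynomial.eval₂_sub, Polynomial.eval₂_mul, Polynomial.eval₂_mul]
    have e1 : eval₂ ρ (algebraMap κ k α) P =
        eval₂ ρ (algebraMap κ k α) h * eval₂ ρ (algebraMap κ k α) Q +
          ρ x * eval₂ ρ (algebraMap κ k α) P₁ := by rw [← hP₁]; ring
    have e2 : eval₂ ρ (algebraMap κ k α) h * eval₂ ρ (algebraMap κ k α) c =
        - (ρ x * eval₂ ρ (algebraMap κ k α) G₁) := by rw [← hG₁]; ring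
    rw [e1]
    linear_combination (eval₂ ρ (algebraMap κ k α) Q) * e2

theorem ord_eq_zero_of_not_mem (v : Place κ k) (a : v.toValuationSubring)
    (ha : a ∉ maximalIdeal v.toValuationSubring) : v.ord (a : k) = 0 := by
  rw [mem_maximalIdeal_iff] at ha
  push Not at ha
  have := ord_nonneg_of_mem v a.2
  omega

include H in
/-- `ord_v (ρ x)` divides the order of every nonzero element of `ρ(A)[α]`. -/
theorem dvd_ord (α : κ) (g : A[X]) (hg : ev ρ α g = 0) (hsep : (g.map (residue A)).Separable) :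
    ∀ (n : ℕ) (P : A[X]), ev ρ α P ≠ 0 → v.ord (ev ρ α P) = n → v.ord (ρ x) ∣ (n : ℤ) := by
  intro n
  induction n using Nat.strong_induction_on with
  | _ n ih =>
    intro P hP0 hn
    by_cases hmax : H.evO α P ∈ maximalIdeal v.toValuationSubring
    · obtain ⟨c, S', hc, heq⟩ := H.key α g hg hsep P hmax
      have hordc : v.ord (ev ρ α c) = 0 := by
        rw [← H.coe_evO]; exact ord_eq_zero_of_not_mem v _ hc
      have hc0 : ev ρ α c ≠ 0 := by
        intro h0
        apply hc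
        have : H.evO α c = 0 := Subtype.ext (by rw [H.coe_evO, h0]; rfl)
        rw [this]; exact zero_mem _
      have hS0 : ev ρ α S' ≠ 0 := by
        intro h
        rw [h, mul_zero] at heq
        exact (mul_ne_zero hc0 hP0) heq
      have h1 := congrArg v.ord heq
      rw [v.ord_mul hc0 hP0, v.ord_mul H.hx0 hS0, hordc, zero_add, hn] at h1
      have hSnn : 0 ≤ v.ord (ev ρ α S') := ord_nonneg_of_mem v (H.ev_mem α S')
      have hxpos : 1 ≤ v.ord (ρ x) := H.pos x H.hx H.hx0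
      obtain ⟨m, hm⟩ := Int.eq_ofNat_of_zero_le hSnn
      have hlt : m < n := by omega
      have h2 := ih m hlt S' hS0 hm
      rw [h1, hm]
      exact dvd_add (dvd_refl _) h2
    · have h0 : v.ord (ev ρ α P) = 0 := by
        rw [← H.coe_evO]; exact ord_eq_zero_of_not_mem v _ hmax
      rw [hn] at h0
      rw [h0]
      exact dvd_zero _

end Hyp

/-! ### Refinement: finitely many constants are polynomials in one -/

section Refine

variable (κ₀ : Type*) [Field κ₀] [Algebra κ₀ κ] [Algebra.IsAlgebraic κ₀ κ]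
  [Algebra.IsSeparable κ₀ κ]

theorem exists_common (α₁ α₂ : κ) :
    ∃ (α : κ) (q₁ q₂ : κ₀[X]), aeval α q₁ = α₁ ∧ aeval α q₂ = α₂ := by
  have hi : ∀ a : κ, IsIntegral κ₀ a := fun a => (Algebra.IsAlgebraic.isAlgebraic a).isIntegral
  haveI : FiniteDimensional κ₀ κ₀⟮α₁, α₂⟯ :=
    IntermediateField.finiteDimensional_adjoin_pair (hi α₁) (hi α₂)
  obtain ⟨α, hα⟩ := Field.exists_primitive_element κ₀ κ₀⟮α₁, α₂⟯
  have hsub : κ₀⟮α⟯.toSubalgebra = Algebra.adjoin κ₀ {α} :=
    IntermediateField.adjoin_simple_toSubalgebra_of_isAlgebraic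
      (Algebra.IsAlgebraic.isAlgebraic α)
  have key : ∀ b : κ₀⟮α₁, α₂⟯, ∃ q : κ₀[X], aeval (α : κ) q = (b : κ) := by
    intro b
    have hb : b ∈ κ₀⟮α⟯.toSubalgebra := by
      rw [IntermediateField.mem_toSubalgebra, hα]; exact IntermediateField.mem_top
    rw [hsub, Algebra.adjoin_singleton_eq_range_aeval] at hb
    obtain ⟨q, hq⟩ := hb
    refine ⟨q, ?_⟩
    have := Polynomial.aeval_algHom_apply (κ₀⟮α₁, α₂⟯).val α q
    rw [IntermediateField.coe_val] at this
    rw [this]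
    show ((Polynomial.aeval α) q : κ) = b
    have hq' : (Polynomial.aeval α) q = b := hq
    rw [hq']
  have h1 : α₁ ∈ κ₀⟮α₁, α₂⟯ := IntermediateField.subset_adjoin κ₀ _ (by simp)
  have h2 : α₂ ∈ κ₀⟮α₁, α₂⟯ := IntermediateField.subset_adjoin κ₀ _ (by simp)
  obtain ⟨q₁, hq₁⟩ := key ⟨α₁, h1⟩
  obtain ⟨q₂, hq₂⟩ := key ⟨α₂, h2⟩
  exact ⟨α, q₁, q₂, hq₁, hq₂⟩

end Refine

/-! ### The core theorem -/

section Core

variable (κ₀ : Type*) [Field κ₀] [Algebra κ₀ κ] [Algebra.IsAlgebraic κ₀ κ]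
  [Algebra.IsSeparable κ₀ κ]

theorem ev_comp (ρ : A →+* k) (α β : κ) (P Q : A[X]) (hQ : ev ρ α Q = algebraMap κ k β) :
    ev ρ α (P.comp Q) = ev ρ β P := by
  unfold ev at *
  rw [Polynomial.eval₂_comp, hQ]

/-- every element of `κ[ρ(A)]` is `P(α)` for one constant `α`. -/
theorem exists_ev_of_mem_adjoin (ρ : A →+* k)
    (hlift : ∀ q : κ₀[X], ∃ Q : A[X], ∀ β : κ, ev ρ β Q = algebraMap κ k (aeval β q))
    {s : k} (hs : s ∈ Algebra.adjoin κ (Set.range ρ)) : ∃ (α : κ) (P : A[X]), ev ρ α P = s := by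
  have two : ∀ (α₁ α₂ : κ) (P₁ P₂ : A[X]), ∃ (α : κ) (P₁' P₂' : A[X]),
      ev ρ α P₁' = ev ρ α₁ P₁ ∧ ev ρ α P₂' = ev ρ α₂ P₂ := by
    intro α₁ α₂ P₁ P₂
    obtain ⟨α, q₁, q₂, h1, h2⟩ := exists_common κ₀ α₁ α₂
    obtain ⟨Q₁, hQ₁⟩ := hlift q₁
    obtain ⟨Q₂, hQ₂⟩ := hlift q₂
    refine ⟨α, P₁.comp Q₁, P₂.comp Q₂, ev_comp ρ α α₁ P₁ Q₁ ?_, ev_comp ρ α α₂ P₂ Q₂ ?_⟩
    · rw [hQ₁, h1]
    · rw [hQ₂, h2]
  induction hs using Algebra.adjoin_induction with
  | mem y hy =>
    obtain ⟨a, rfl⟩ := hy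
    exact ⟨0, Polynomial.C a, by unfold ev; rw [Polynomial.eval₂_C]⟩
  | algebraMap c =>
    exact ⟨c, Polynomial.X, by unfold ev; rw [Polynomial.eval₂_X]⟩
  | add y z _ _ hy hz =>
    obtain ⟨α₁, P₁, rfl⟩ := hy
    obtain ⟨α₂, P₂, rfl⟩ := hz
    obtain ⟨α, P₁', P₂', h1, h2⟩ := two α₁ α₂ P₁ P₂
    exact ⟨α, P₁' + P₂', by rw [← h1, ← h2]; unfold ev; rw [Polynomial.eval₂_add]⟩
  | mul y z _ _ hy hz =>
    obtain ⟨α₁, P₁, rfl⟩ := hy
    obtain ⟨α₂, P₂, rfl⟩ := hz
    obtain ⟨α, P₁', P₂', h1, h2⟩ := two α₁ α₂ P₁ P₂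
    exact ⟨α, P₁' * P₂', by rw [← h1, ← h2]; unfold ev; rw [Polynomial.eval₂_mul]⟩

/-- **A constant field extension is unramified (core form).** -/
theorem ord_eq_one_core (H : Hyp v ρ x)
    (hlift : ∀ q : κ₀[X], ∃ Q : A[X], ∀ β : κ, ev ρ β Q = algebraMap κ k (aeval β q))
    (hann : ∀ α : κ, ∃ g : A[X], ev ρ α g = 0 ∧ (g.map (residue A)).Separable)
    (hfrac : ∀ z : k, ∃ D N : k, D ∈ Algebra.adjoin κ (Set.range ρ) ∧
      N ∈ Algebra.adjoin κ (Set.range ρ) ∧ D ≠ 0 ∧ z * D = N) :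
    v.ord (ρ x) = 1 := by
  obtain ⟨π, hπ⟩ := IsDiscreteValuationRing.exists_irreducible v.toValuationSubring
  have hu : v.ord (π : k) = 1 := v.ord_coe_irreducible hπ
  have hu0 : (π : k) ≠ 0 := fun h => hπ.ne_zero (Subtype.ext h)
  obtain ⟨D, N, hD, hN, hD0, hDN⟩ := hfrac (π : k)
  obtain ⟨α₁, P₁, h1⟩ := exists_ev_of_mem_adjoin κ₀ ρ hlift hD
  obtain ⟨α₂, P₂, h2⟩ := exists_ev_of_mem_adjoin κ₀ ρ hlift hN
  obtain ⟨α, q₁, q₂, e1, e2⟩ := exists_common κ₀ α₁ α₂
  obtain ⟨Q₁, hQ₁⟩ := hlift q₁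
  obtain ⟨Q₂, hQ₂⟩ := hlift q₂
  have hD' : ev ρ α (P₁.comp Q₁) = D := by
    rw [ev_comp ρ α α₁ P₁ Q₁ (by rw [hQ₁, e1]), h1]
  have hN' : ev ρ α (P₂.comp Q₂) = N := by
    rw [ev_comp ρ α α₂ P₂ Q₂ (by rw [hQ₂, e2]), h2]
  obtain ⟨g, hg, hsep⟩ := hann α
  have hN0 : N ≠ 0 := by rw [← hDN]; exact mul_ne_zero hu0 hD0
  have hDnn : 0 ≤ v.ord D := by rw [← hD']; exact ord_nonneg_of_mem v (H.ev_mem α _)
  obtain ⟨nD, hnD⟩ := Int.eq_ofNat_of_zero_le hDnn
  have hordN : v.ord N = ((1 + nD : ℕ) : ℤ) := by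
    rw [← hDN, v.ord_mul hu0 hD0, hu, hnD]; push_cast; ring
  have d1 : v.ord (ρ x) ∣ (nD : ℤ) :=
    H.dvd_ord α g hg hsep nD (P₁.comp Q₁) (by rw [hD']; exact hD0) (by rw [hD']; exact hnD)
  have d2 : v.ord (ρ x) ∣ ((1 + nD : ℕ) : ℤ) :=
    H.dvd_ord α g hg hsep (1 + nD) (P₂.comp Q₂) (by rw [hN']; exact hN0)
      (by rw [hN']; exact hordN)
  have d3 : v.ord (ρ x) ∣ 1 := by
    have : ((1 + nD : ℕ) : ℤ) = 1 + (nD : ℤ) := by push_cast; ring
    rw [this] at d2
    exact (dvd_add_left d1).1 d2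
  have hxpos : 1 ≤ v.ord (ρ x) := H.pos x H.hx H.hx0
  exact Int.eq_one_of_dvd_one (by omega) d3

end Core

/-! ### The case `κ₀ = 𝔽_p` -/

section ZModP

variable (p : ℕ) [Fact p.Prime]

/-- evaluation of an integral polynomial. -/
theorem ev_map_int [Algebra (ZMod p) κ] (ρ : A →+* k) (β : κ) (qZ : ℤ[X]) :
    ev ρ β (qZ.map (Int.castRingHom A)) =
      algebraMap κ k (aeval β (qZ.map (Int.castRingHom (ZMod p)))) := by
  unfold ev
  rw [Polynomial.eval₂_map, Polynomial.aeval_def, Polynomial.eval₂_map, Polynomial.hom_eval₂]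
  congr 1
  exact Subsingleton.elim _ _

theorem hlift_zmod [Algebra (ZMod p) κ] (ρ : A →+* k) (q : (ZMod p)[X]) :
    ∃ Q : A[X], ∀ β : κ, ev ρ β Q = algebraMap κ k (aeval β q) := by
  obtain ⟨qZ, rfl⟩ := Polynomial.map_surjective (Int.castRingHom (ZMod p))
    (ZMod.intCast_surjective) q
  exact ⟨qZ.map (Int.castRingHom A), fun β => ev_map_int p ρ β qZ⟩

theorem hann_zmod [Algebra (ZMod p) κ] [Algebra.IsAlgebraic (ZMod p) κ] (H : Hyp v ρ x) (α : κ) :
    ∃ g : A[X], ev ρ α g = 0 ∧ (g.map (residue A)).Separable := by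
  have hsep : (minpoly (ZMod p) α).Separable := Algebra.IsSeparable.isSeparable (ZMod p) α
  obtain ⟨mZ, hmZ⟩ := Polynomial.map_surjective (Int.castRingHom (ZMod p))
    (ZMod.intCast_surjective) (minpoly (ZMod p) α)
  refine ⟨mZ.map (Int.castRingHom A), ?_, ?_⟩
  · rw [ev_map_int p ρ α mZ, hmZ, minpoly.aeval, map_zero]
  · rw [← Polynomial.separable_map H.iota, Polynomial.map_map, Polynomial.map_map]
    let θ : ZMod p →+* v.ResidueField :=
      ((residue v.toValuationSubring).comp (algebraMap κ v.toValuationSubring)).comp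
        (algebraMap (ZMod p) κ)
    have h1 : mZ.map ((H.iota.comp (residue A)).comp (Int.castRingHom A)) =
        (mZ.map (Int.castRingHom (ZMod p))).map θ := by
      rw [Polynomial.map_map]
      congr 1
      exact Subsingleton.elim _ _
    rw [h1, hmZ]
    exact hsep.map

end ZModP

/-- **A constant field extension is unramified** (fraction form).  `ρ : A → O_v` local with
`ρ(𝔪_A) = ρ(x) ρ(A)`, `κ` algebraic over `𝔽_p`, every element of `k` a quotient of elements of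
`κ[ρ(A)]`: then `ρ x` is a uniformiser at `v`. -/
theorem ord_eq_one_of_constExt' (p : ℕ) [Fact p.Prime] [Algebra (ZMod p) κ]
    [Algebra.IsAlgebraic (ZMod p) κ] (H : Hyp v ρ x)
    (hfrac : ∀ z : k, ∃ D N : k, D ∈ Algebra.adjoin κ (Set.range ρ) ∧
      N ∈ Algebra.adjoin κ (Set.range ρ) ∧ D ≠ 0 ∧ z * D = N) : v.ord (ρ x) = 1 :=
  ord_eq_one_core (ZMod p) H (hlift_zmod p ρ) (hann_zmod p H) hfrac

/-- **A constant field extension is unramified.**  `ρ : A → O_v` local with `ρ(𝔪_A) = ρ(x) ρ(A)`,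
`κ` algebraic over `𝔽_p`, and `k = κ(ρ(A))`: then `ρ x` is a uniformiser at `v`. -/
theorem ord_eq_one_of_constExt (p : ℕ) [Fact p.Prime] [Algebra (ZMod p) κ]
    [Algebra.IsAlgebraic (ZMod p) κ] (H : Hyp v ρ x)
    (htop : IntermediateField.adjoin κ (Set.range ρ) = ⊤) : v.ord (ρ x) = 1 := by
  refine ord_eq_one_of_constExt' p H ?_
  intro z
  have hz : z ∈ IntermediateField.adjoin κ (Set.range ρ) := by rw [htop]; exact mem_top
  rw [IntermediateField.mem_adjoin_iff_div] at hz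
  obtain ⟨r, hr, s, hs, rfl⟩ := hz
  by_cases hs0 : s = 0
  · refine ⟨1, 0, one_mem _, zero_mem _, one_ne_zero, ?_⟩
    rw [hs0, div_zero, zero_mul]
  · exact ⟨s, r, hs, hr, hs0, div_mul_cancel₀ r hs0⟩

/-- Every nonzero element of `ρ(A)` has order `≥ 0`, and `ρ x` generates: for `a ∈ A` with
`ρ a ≠ 0`, `ρ a = ρ x ^ n * ρ w` with `w` a unit, `n = ord_v (ρ a)` (so `ord_v ∘ ρ` is the
`x̄`-adic valuation of `ρ(A)`).  Stated for completeness. -/
theorem exists_pow_mul_unit (p : ℕ) [Fact p.Prime] [Algebra (ZMod p) κ]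
    [Algebra.IsAlgebraic (ZMod p) κ] (H : Hyp v ρ x)
    (htop : IntermediateField.adjoin κ (Set.range ρ) = ⊤) (a : A) (ha : ρ a ≠ 0) :
    ∃ (n : ℕ) (w : A), IsUnit w ∧ ρ a = ρ x ^ n * ρ w ∧ v.ord (ρ a) = n := by
  have hx1 := ord_eq_one_of_constExt p H htop
  have main : ∀ (n : ℕ) (a : A), ρ a ≠ 0 → v.ord (ρ a) = n →
      ∃ (w : A), IsUnit w ∧ ρ a = ρ x ^ n * ρ w := by
    intro n
    induction n with
    | zero =>
      intro a ha hn
      refine ⟨a, ?_, by rw [pow_zero, one_mul]⟩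
      by_contra hu
      have := H.pos a ((mem_maximalIdeal a).2 hu) ha
      rw [hn] at this
      norm_num at this
    | succ n ih =>
      intro a ha hn
      have hmem : a ∈ maximalIdeal A := by
        rw [mem_maximalIdeal]
        intro hu
        obtain ⟨b, hb⟩ := hu.exists_right_inv
        have h1 : ρ a * ρ b = 1 := by rw [← map_mul, hb, map_one]
        have hb0 : ρ b ≠ 0 := right_ne_zero_of_mul_eq_one h1
        have h2 := congrArg v.ord h1
        rw [v.ord_mul ha hb0, v.ord_one, hn] at h2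
        have := ord_nonneg_of_mem v (H.mem b)
        push_cast at h2
        omega
      obtain ⟨a', ha'⟩ := H.gen a hmem
      have ha'0 : ρ a' ≠ 0 := by
        intro h0; rw [h0, mul_zero] at ha'; exact ha ha'
      have h3 : v.ord (ρ a') = n := by
        have := congrArg v.ord ha'
        rw [v.ord_mul H.hx0 ha'0, hx1, hn] at this
        push_cast at this
        omega
      obtain ⟨w, hw, hw'⟩ := ih a' ha'0 h3
      exact ⟨w, hw, by rw [ha', hw', pow_succ]; ring⟩
  obtain ⟨n, hn⟩ := Int.eq_ofNat_of_zero_le (ord_nonneg_of_mem v (H.mem a))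
  obtain ⟨w, hw, hw'⟩ := main n a ha hn
  exact ⟨n, w, hw, hw', hn⟩

end Fermat.Agent.T1B.Unif77
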