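/-
Programme T1B, NODE PLACES over `κ̄` (helper77): adapter of `Unif77/ConstExt` to helper80's
`Hol80.NodePlaceW`.

`A` the local ring of the model at a node (`D : NodeData A v₁ v₂ P₁ P₂ π x y K`), `ρA : A →+* k` with
kernel `P₁`, landing in `O_v`, local; `κ` algebraic over `𝔽_p` and `k = κ(ρA(A))`.  Then `x̄` is a
uniformiser at `v`, so `(ker, mem, pos)` extend to a `NodePlaceW` (`unif` with `g := x`).
-/
import Mathlib
import Fermat.Agent.T1B.Unif77.ConstExt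
import Fermat.Agent.T1B.Hol80.R1W

set_option autoImplicit false
set_option linter.unusedSectionVars false
set_option linter.unusedVariables false

namespace Fermat.Agent.T1B.Unif77

open AlgebraicCurve IsLocalRing Fermat.Agent.T1.Peu37.NodeClassGroup Fermat.Agent.T1B.Node45.Orbit
  Fermat.Agent.T1B.Hol80

variable {A : Type*} [CommRing A] [IsDomain A] [IsLocalRing A] [IsNoetherianRing A]
variable {v₁ v₂ : A → ℕ} {P₁ P₂ : Ideal A} {π x y : A} {K : ℕ}
variable {κ k : Type*} [Field κ] [Field k] [Algebra κ k]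
variable {ρA : A →+* k} {v : Place κ k}

/-- The hypotheses of `ConstExt` at a node. -/
theorem hyp_of_nodeData (D : NodeData A v₁ v₂ P₁ P₂ π x y K)
    (ker : ∀ a : A, ρA a = 0 ↔ a ∈ P₁) (mem : ∀ a : A, ρA a ∈ v.toValuationSubring)
    (pos : ∀ a ∈ maximalIdeal A, ρA a ≠ 0 → 1 ≤ v.ord (ρA a)) : Hyp v ρA x where
  mem := mem
  pos := pos
  hx := by
    rw [D.max_eq]
    exact Ideal.subset_span (by simp)
  hx0 := fun h0 => x_not_mem_P₁ D ((ker x).1 h0)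
  gen := by
    intro a ham
    rw [D.max_eq] at ham
    obtain ⟨a₁, a₂, a₃, hsum⟩ : ∃ a₁ a₂ a₃ : A, a₁ * π + a₂ * x + a₃ * y = a := by
      obtain ⟨c₁, z, hz, rfl⟩ := Ideal.mem_span_insert.1 ham
      obtain ⟨c₂, z', hz', rfl⟩ := Ideal.mem_span_insert.1 hz
      obtain ⟨c₃, rfl⟩ := Ideal.mem_span_singleton'.1 hz'
      exact ⟨c₁, c₂, c₃, by ring⟩
    have hπ0 : ρA π = 0 := (ker π).2 (pi_mem_P₁ D)
    have hy0 : ρA y = 0 := (ker y).2 (y_mem_P₁ D)
    refine ⟨a₂, ?_⟩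
    rw [← hsum, map_add, map_add, map_mul, map_mul, map_mul, hπ0, hy0, mul_zero, mul_zero,
      zero_add, add_zero, mul_comm]

/-- **`x̄` is a uniformiser at every `κ̄`-place centred at the node.** -/
theorem ord_x_of_constExt (D : NodeData A v₁ v₂ P₁ P₂ π x y K) (p : ℕ) [Fact p.Prime]
    [Algebra (ZMod p) κ] [Algebra.IsAlgebraic (ZMod p) κ]
    (ker : ∀ a : A, ρA a = 0 ↔ a ∈ P₁) (mem : ∀ a : A, ρA a ∈ v.toValuationSubring)
    (pos : ∀ a ∈ maximalIdeal A, ρA a ≠ 0 → 1 ≤ v.ord (ρA a))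
    (htop : IntermediateField.adjoin κ (Set.range ρA) = ⊤) : v.ord (ρA x) = 1 :=
  ord_eq_one_of_constExt p (hyp_of_nodeData D ker mem pos) htop

/-- **The weak node place from `(ker, mem, pos)`** when `k = κ(ρA(A))`, `κ` algebraic over `𝔽_p`. -/
theorem nodePlaceW_of_constExt (D : NodeData A v₁ v₂ P₁ P₂ π x y K) (p : ℕ) [Fact p.Prime]
    [Algebra (ZMod p) κ] [Algebra.IsAlgebraic (ZMod p) κ]
    (ker : ∀ a : A, ρA a = 0 ↔ a ∈ P₁) (mem : ∀ a : A, ρA a ∈ v.toValuationSubring)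
    (pos : ∀ a ∈ maximalIdeal A, ρA a ≠ 0 → 1 ≤ v.ord (ρA a))
    (htop : IntermediateField.adjoin κ (Set.range ρA) = ⊤) : NodePlaceW P₁ ρA v where
  ker := ker
  mem := mem
  pos := pos
  unif := ⟨x, fun h0 => x_not_mem_P₁ D ((ker x).1 h0), ord_x_of_constExt D p ker mem pos htop⟩

/-- Fraction form of the generation hypothesis. -/
theorem nodePlaceW_of_constExt' (D : NodeData A v₁ v₂ P₁ P₂ π x y K) (p : ℕ) [Fact p.Prime]
    [Algebra (ZMod p) κ] [Algebra.IsAlgebraic (ZMod p) κ]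
    (ker : ∀ a : A, ρA a = 0 ↔ a ∈ P₁) (mem : ∀ a : A, ρA a ∈ v.toValuationSubring)
    (pos : ∀ a ∈ maximalIdeal A, ρA a ≠ 0 → 1 ≤ v.ord (ρA a))
    (hfrac : ∀ z : k, ∃ D N : k, D ∈ Algebra.adjoin κ (Set.range ρA) ∧
      N ∈ Algebra.adjoin κ (Set.range ρA) ∧ D ≠ 0 ∧ z * D = N) : NodePlaceW P₁ ρA v where
  ker := ker
  mem := mem
  pos := pos
  unif := ⟨x, fun h0 => x_not_mem_P₁ D ((ker x).1 h0),
    ord_eq_one_of_constExt' p (hyp_of_nodeData D ker mem pos) hfrac⟩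

end Fermat.Agent.T1B.Unif77
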